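import Fermat.Agent.Mazur.Odd.Main
import Fermat.Agent.Mazur.Component.Basic
import Fermat.Agent.Mazur.Component.HeckeBound
import Fermat.Agent.Mazur.Points

/-!
# A rank zero element from a component at an odd Eisenstein prime
-/

set_option autoImplicit false
set_option linter.style.haveILetI false

noncomputable section

open ModularCurve

namespace Fermat.Agent.Mazur

open Fermat.Agent.FlatTangent ExtCitation

/-- The two facts about the kernel of reduction used by the descent on a module. -/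
def RedConnFacts (p : Nat.Primes) [NeZero (p : ℕ)] (ℓ : ℕ) [Fact ℓ.Prime] : Prop :=
  ∀ (N : AddSubgroup (JZero (p : ℕ))) (hN : Descent.IsStable (jRep (p : ℕ)) N), Finite N →
    Descent.Eig (cycloChar ℓ) (Descent.subRep (jRep (p : ℕ)) N hN) →
      (∀ x ∈ N, x ∈ redKer p ℓ → x ∈ iClos ℓ N) ∧
      Nat.card ↥(iClos ℓ N) *
          Nat.card ↥(N ⊓ Descent.fixOne (jRep (p : ℕ)) complexConjugation) ≤ Nat.card N

/-- Inertia at `p` is unipotent on the `ℓ`-power torsion. -/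
def UnipAtLevel (p : Nat.Primes) [NeZero (p : ℕ)] (ℓ : ℕ) : Prop :=
  ∀ (R : ℕ) (x : JZero (p : ℕ)), ℓ ^ R • x = 0 →
    ∀ σ ∈ Descent.inertP p, σ • (σ • x - x) = σ • x - x

namespace Component

variable {p : Nat.Primes} [NeZero (p : ℕ)] {ℓ : ℕ} [hℓ : Fact ℓ.Prime]
  (X : Component (p : ℕ) ℓ)

/-- The Hecke eigenvalue at `ℓ`. -/
def eigℓ : X.K := X.charT (CuspForm.heckeEvalForms (p : ℕ) 2 (heckeGen ⟨ℓ, hℓ.out⟩))

theorem eigℓ_ne (hℓp : ℓ ≠ p) {c : ℤ} (hc : ℓ + 1 ≤ c.natAbs) : X.eigℓ ≠ (c : X.K) := by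
  intro h
  have hN : ¬ ℓ ∣ (p : ℕ) := not_dvd_level hℓ.out hℓp
  haveI : (RingHom.ker X.charT).IsPrime := RingHom.ker_isPrime _
  refine heckeT_sub_notMem (P := RingHom.ker X.charT) (fun n hn => ?_) hℓ.out hN hc ?_
  · rwa [RingHom.mem_ker, map_intCast, Int.cast_eq_zero] at hn
  · rw [RingHom.mem_ker, map_sub, map_intCast, sub_eq_zero, ← h, eigℓ,
      CuspForm.heckeEvalForms_heckeGen_of_not_dvd (ℓ := ⟨ℓ, hℓ.out⟩) hN]

theorem eigℓ_mul_ne (hℓp : ℓ ≠ p) :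
    X.eigℓ * X.eigℓ ≠ (((ℓ + 1) ^ 2 : ℕ) : X.K) := by
  intro h
  rw [Nat.cast_pow, ← sq, sq_eq_sq_iff_eq_or_eq_neg] at h
  rcases h with h | h
  · exact X.eigℓ_ne hℓp (c := ((ℓ + 1 : ℕ) : ℤ)) (Int.natAbs_natCast _).ge (h.trans (Int.cast_natCast _).symm)
  · exact X.eigℓ_ne hℓp (c := -((ℓ + 1 : ℕ) : ℤ)) (by rw [Int.natAbs_neg, Int.natAbs_natCast])
      (h.trans (by rw [Int.cast_neg, Int.cast_natCast]))

theorem charT_opElt_ne (hℓp : ℓ ≠ p) :
    X.charT (CuspForm.heckeEvalForms (p : ℕ) 2 (opElt ⟨ℓ, hℓ.out⟩)) ≠ 0 := by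
  simp only [opElt, map_mul, map_sub, map_natCast]
  refine mul_ne_zero (sub_ne_zero.mpr fun h => ?_) (sub_ne_zero.mpr (X.eigℓ_mul_ne hℓp))
  exact X.eigℓ_ne hℓp (c := ((ℓ + 1 : ℕ) : ℤ)) (Int.natAbs_natCast _).ge (h.trans (Int.cast_natCast _).symm)

theorem exists_nsmul_mem (w : X.W) : ∃ k : ℕ, ℓ ^ k • w ∈ X.lat := by
  obtain ⟨k, hk⟩ := X.exists_pow_smul_mem w
  exact ⟨k, by rwa [← Nat.cast_pow, Nat.cast_smul_eq_nsmul] at hk⟩

theorem pt_eq_zero_iff' (R : ℕ) (v : X.lat) : X.pt R v = 0 ↔ ∃ v', v = ℓ ^ R • v' := by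
  rw [X.pt_eq_zero_iff]
  exact exists_congr fun v' => by rw [← Nat.cast_pow, Nat.cast_smul_eq_nsmul]

theorem pt_eig (R : ℕ) (h : Descent.IsStable (jRep (p : ℕ)) (X.pt R).range) :
    Descent.Eig (cycloChar ℓ) (Descent.subRep (jRep (p : ℕ)) (X.pt R).range h) := by
  obtain ⟨b, hb⟩ := X.residual
  refine ⟨R, b * R, fun m => ⟨?_, fun g => ?_⟩⟩
  · obtain ⟨v, hv⟩ := m.2
    refine Subtype.ext ?_
    rw [AddSubgroup.coe_nsmul, ← hv]
    exact X.pow_smul_pt R v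
  obtain ⟨v, hv⟩ := m.2
  set n := (cycloChar ℓ g : ZMod ℓ).val
  -- the operator on the lattice
  let f₁ : Module.End X.K X.W := X.rep g - 1
  let f₂ : Module.End X.K X.W := X.rep g - (n : Module.End X.K X.W)
  have hn : ∀ w : X.W, (n : Module.End X.K X.W) w = n • w := fun w => by
    rw [Module.End.natCast_apply]
  have h1mem : ∀ w ∈ X.lat, f₁ w ∈ X.lat := fun w hw =>
    X.lat.sub_mem (X.rep_mem g w hw) hw
  have h2mem : ∀ w ∈ X.lat, f₂ w ∈ X.lat := fun w hw => by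
    show X.rep g w - (n : Module.End X.K X.W) w ∈ X.lat
    rw [hn]
    exact X.lat.sub_mem (X.rep_mem g w hw) (X.lat.toAddSubgroup.nsmul_mem hw n)
  have hcomm : Commute (f₁ ^ b) (f₂ ^ b) :=
    ((Commute.sub_right (Commute.sub_left (Commute.refl _) (Commute.one_left _))
      (Nat.cast_commute _ _).symm)).pow_pow b b
  have key : ∀ (i : ℕ) (w : X.W), w ∈ X.lat →
      ∃ u ∈ X.lat, ((f₁ ^ b * f₂ ^ b) ^ i) w = ℓ ^ i • u := by
    intro i
    induction i with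
    | zero => exact fun w hw => ⟨w, hw, by rw [pow_zero, pow_zero, one_smul]; rfl⟩
    | succ i ih =>
      intro w hw
      obtain ⟨u, hu, he⟩ := hb g w hw
      rw [Nat.cast_smul_eq_nsmul] at he
      obtain ⟨u', hu', he'⟩ := ih u hu
      refine ⟨u', hu', ?_⟩
      rw [pow_succ, Module.End.mul_apply, Module.End.mul_apply]
      show ((f₁ ^ b * f₂ ^ b) ^ i) ((f₁ ^ b) ((f₂ ^ b) w)) = _
      rw [show (f₁ ^ b) ((f₂ ^ b) w) = ℓ • u from he, map_nsmul, he', pow_succ', mul_smul]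
  obtain ⟨u, hu, he⟩ := key R v v.2
  rw [hcomm.mul_pow, ← pow_mul, ← pow_mul, Module.End.mul_apply] at he
  -- transfer
  let G₁ : AddMonoid.End X.lat :=
    AddMonoidHom.mk' (fun w => ⟨f₁ w, h1mem w w.2⟩) fun x y => Subtype.ext (map_add f₁ _ _)
  let G₂ : AddMonoid.End X.lat :=
    AddMonoidHom.mk' (fun w => ⟨f₂ w, h2mem w w.2⟩) fun x y => Subtype.ext (map_add f₂ _ _)
  have hG : ∀ (G : AddMonoid.End X.lat) (f : Module.End X.K X.W), (∀ w : X.lat, (G w : X.W) = f w) →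
      ∀ (i : ℕ) (w : X.lat), ((G ^ i) w : X.W) = (f ^ i) (w : X.W) := by
    intro G f hGf i
    induction i with
    | zero => intro w; rfl
    | succ i ih => intro w; rw [Descent.end_pow_succ_apply, pow_succ, Module.End.mul_apply, ih, hGf]
  set ρ' := Descent.subRep (jRep (p : ℕ)) (X.pt R).range h
  have hr : ∀ w, (X.pt R).rangeRestrict (G₁ w) = (ρ' g - 1) ((X.pt R).rangeRestrict w) := fun w => by
    refine Subtype.ext ?_
    show X.pt R ⟨f₁ w, _⟩ = g • X.pt R w - X.pt R w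
    rw [X.smul_pt, ← map_sub]
    rfl
  have hr' : ∀ w, (X.pt R).rangeRestrict (G₂ w) =
      (ρ' g - (n : AddMonoid.End ↥(X.pt R).range)) ((X.pt R).rangeRestrict w) := fun w => by
    refine Subtype.ext ?_
    show X.pt R ⟨f₂ w, _⟩ = g • X.pt R w - n • X.pt R w
    rw [X.smul_pt, ← map_nsmul, ← map_sub]
    refine congrArg _ (Subtype.ext ?_)
    show X.rep g w - (n : Module.End X.K X.W) w = X.rep g w - n • (w : X.W)
    rw [hn]
  obtain rfl : (X.pt R).rangeRestrict v = m := Subtype.ext hv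
  rw [← Descent.map_pow_apply _ _ _ hr', ← Descent.map_pow_apply _ _ _ hr]
  refine Subtype.ext ?_
  show X.pt R _ = 0
  rw [X.pt_eq_zero_iff']
  refine ⟨⟨u, hu⟩, Subtype.ext ?_⟩
  rw [hG G₁ f₁ (fun _ => rfl), hG G₂ f₂ (fun _ => rfl), he]
  rfl

/-- The plane datum of a component at an odd prime. -/
def planeDatum (hℓ2 : ℓ ≠ 2) (hℓp : ℓ ≠ p) (hconn : RedConnFacts p ℓ) (hunip : UnipAtLevel p ℓ) :
    PlaneDatum p X.rep X.lat X.eigℓ where
  odd := hℓ2
  ne_level := hℓp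
  rank := X.finrank_two
  fin := inferInstance
  stable := X.rep_mem
  span := X.exists_nsmul_mem
  smul_mem := X.hecke_mem (heckeGen ⟨ℓ, hℓ.out⟩)
  sq_ne := X.eigℓ_mul_ne hℓp
  det g := (X.det_rep g).trans (IsScalarTower.algebraMap_apply ℤ_[ℓ] ℚ_[ℓ] X.K _)
  unip σ hσ w := by
    obtain ⟨k, hk⟩ := X.exists_nsmul_mem w
    set v : X.lat := ⟨_, hk⟩
    have h : (⟨X.rep σ (X.rep σ v - v), X.rep_mem σ _ (X.lat.sub_mem (X.rep_mem σ v v.2) v.2)⟩ :
        X.lat) - ⟨X.rep σ v - v, X.lat.sub_mem (X.rep_mem σ v v.2) v.2⟩ = 0 := by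
      refine X.eq_zero_of_forall_pt fun R => ?_
      have hs : σ • X.pt R v - X.pt R v =
          X.pt R ⟨X.rep σ v - v, X.lat.sub_mem (X.rep_mem σ v v.2) v.2⟩ := by
        rw [X.smul_pt, ← map_sub]; rfl
      have h1 := hunip R (X.pt R v) (X.pow_smul_pt R v) σ hσ
      rw [hs, X.smul_pt] at h1
      rw [map_sub, h1, sub_self]
    have h' : X.rep σ (X.rep σ (v : X.W) - v) - (X.rep σ (v : X.W) - v) = 0 :=
      congrArg Subtype.val h
    rw [sub_eq_zero, show (v : X.W) = ℓ ^ k • w from rfl, map_nsmul, ← nsmul_sub, map_nsmul] at h'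
    exact PlaneDatum.nsmul_cancel (K := X.K) k h'
  τ := X.pt
  ker := X.pt_eq_zero_iff'
  equiv := X.smul_pt
  hecke R v := X.hecke_pt R _ v
  eig := X.pt_eig
  conn R x hx hxr := by
    have hst : Descent.IsStable (jRep (p : ℕ)) (X.pt R).range := by
      rintro g _ ⟨v, rfl⟩
      exact ⟨_, (X.smul_pt R g v).symm⟩
    haveI : Finite ↥(X.pt R).range := ((HK.finite_jZero_nsmul_eq_zero (p : ℕ) (ℓ ^ R)).subset
      (by rintro _ ⟨v, rfl⟩; exact X.pow_smul_pt R v)).to_subtype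
    exact (hconn _ hst inferInstance (X.pt_eig R hst)).1 x hx hxr
  card_conn R := by
    have hst : Descent.IsStable (jRep (p : ℕ)) (X.pt R).range := by
      rintro g _ ⟨v, rfl⟩
      exact ⟨_, (X.smul_pt R g v).symm⟩
    haveI : Finite ↥(X.pt R).range := ((HK.finite_jZero_nsmul_eq_zero (p : ℕ) (ℓ ^ R)).subset
      (by rintro _ ⟨v, rfl⟩; exact X.pow_smul_pt R v)).to_subtype
    exact (hconn _ hst inferInstance (X.pt_eig R hst)).2

include X in
/-- **A component at an odd Eisenstein prime gives a rank zero element.** -/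
theorem rankZeroElement (hℓ2 : ℓ ≠ 2) (hℓp : ℓ ≠ p) (hconn : RedConnFacts p ℓ)
    (hunip : UnipAtLevel p ℓ) : RankZeroElement (p : ℕ) :=
  (X.planeDatum hℓ2 hℓp hconn hunip).rankZeroElement X.e (fun R x hx => X.proj R x hx)
    (X.not_dvd _ (X.charT_opElt_ne hℓp))

end Component

end Fermat.Agent.Mazur
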