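import Fermat.Agent.GAL.Cyclo
import Fermat.Agent.Mazur.Two.Valuation

/-!
# The cyclotomic character at the chosen place over `ℓ`
-/

set_option autoImplicit false
set_option linter.style.haveILetI false

noncomputable section

namespace Fermat.Agent.Mazur

open Fermat.Agent.FlatTangent

variable (ℓ : ℕ) [hℓ : Fact ℓ.Prime]

/-- Inertia at `ℓ` realises every exponent prime to `ℓ` on the `ℓ ^ R`-th roots of unity. -/
theorem exists_inert_cycExp (R : ℕ) {k : ℕ} (hk : ¬ ℓ ∣ k) :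
    ∃ σ ∈ inert ℓ, ∀ ζ : Qb, ζ ^ ℓ ^ R = 1 → σ ζ = ζ ^ k := by
  haveI : NeZero (ℓ ^ R) := ⟨pow_ne_zero R hℓ.out.ne_zero⟩
  have hn : Nat.card (rootsOfUnity (ℓ ^ R) Qb) = ℓ ^ R :=
    HasEnoughRootsOfUnity.natCard_rootsOfUnity Qb _
  obtain ⟨σ, hσ, hu⟩ := Galois.exists_inertia_modularCyclotomicCharacter_eq (plc_liesOverPrime ℓ)
    hℓ.out R hn (ZMod.unitOfCoprime k
      ((Nat.Coprime.pow_left R ((hℓ.out.coprime_iff_not_dvd).mpr hk)).symm))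
  refine ⟨σ, hσ, fun ζ hζ => ?_⟩
  have h := modularCyclotomicCharacter.spec Qb hn (σ : Qb ≃+* Qb)
    (t := Units.ofPowEqOne ζ (ℓ ^ R) hζ (NeZero.ne _))
    ((mem_rootsOfUnity _ _).mpr (Units.pow_ofPowEqOne _ _))
  rw [hu] at h
  change σ ζ = ζ ^ (k : ZMod (ℓ ^ R)).val at h
  rw [h, ZMod.val_natCast, ← pow_eq_pow_mod k hζ]

/-- A Frobenius element at `ℓ` fixing the `ℓ ^ R`-th roots of unity. -/
theorem exists_frob_fix (R : ℕ) :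
    ∃ F : Gal, (plc ℓ).IsFrobeniusAt F ℓ ∧ ∀ ζ : Qb, ζ ^ ℓ ^ R = 1 → F ζ = ζ := by
  haveI : NeZero (ℓ ^ R) := ⟨pow_ne_zero R hℓ.out.ne_zero⟩
  obtain ⟨φ, hφ⟩ := exists_frobenius (p := ℓ)
  obtain ⟨z, hz⟩ := HasEnoughRootsOfUnity.exists_primitiveRoot Qb (ℓ ^ R)
  obtain ⟨k, hk, hkz⟩ := hz.eq_pow_of_pow_eq_one (ξ := φ⁻¹ z)
    (by rw [← map_pow, hz.pow_eq_one, map_one])
  rcases Nat.eq_zero_or_pos R with hR | hR
  · exact ⟨φ, hφ, fun ζ hζ => by rw [show ζ = 1 by simpa [hR] using hζ, map_one]⟩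
  have hz1 : IsPrimitiveRoot (φ⁻¹ z) (ℓ ^ R) := hz.map_of_injective (φ⁻¹ : Gal).injective
  rw [← hkz, hz.pow_iff_coprime (NeZero.pos _), Nat.coprime_pow_right_iff hR] at hz1
  obtain ⟨σ, hσ, hσz⟩ := exists_inert_cycExp ℓ R
    (fun h => (hℓ.out.coprime_iff_not_dvd.mp hz1.symm) h)
  refine ⟨φ * σ, ?_, fun ζ hζ => ?_⟩
  · have h := Galois.inertia_normal_in_decomposition hσ hφ.mem_decompositionSubgroup
    have e : φ * σ = φ * σ * φ⁻¹ * φ := by rw [inv_mul_cancel_right]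
    rw [e]
    exact Galois.isFrobeniusAt_inertia_mul hφ h
  · rw [AlgEquiv.mul_apply, hσz ζ hζ, map_pow]
    obtain ⟨i, -, rfl⟩ := hz.eq_pow_of_pow_eq_one hζ
    rw [map_pow, ← pow_mul, mul_comm, pow_mul, ← map_pow φ, hkz]
    rw [← AlgEquiv.mul_apply, mul_inv_cancel, AlgEquiv.one_apply]

/-- The cyclotomic character modulo `ℓ ^ R` is the exponent on the roots of unity. -/
theorem cycQ_modEq {R k : ℕ} {σ : Gal} (h : ∀ ζ : Qb, ζ ^ ℓ ^ R = 1 → σ ζ = ζ ^ k) :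
    ∃ y : ℤ_[ℓ], GAL.cycQ ℓ σ = k + (ℓ : ℤ_[ℓ]) ^ R * y := by
  haveI : ∀ i, HasEnoughRootsOfUnity Qb (ℓ ^ i) := fun i => inferInstance
  haveI : NeZero (ℓ ^ R) := ⟨pow_ne_zero R hℓ.out.ne_zero⟩
  have h1 : PadicInt.toZModPow R (GAL.cycQ ℓ σ) = (k : ZMod (ℓ ^ R)) := by
    show PadicInt.toZModPow R
      ((cyclotomicCharacter Qb ℓ (MulSemiringAction.toRingAut Gal Qb σ) : ℤ_[ℓ]ˣ) : ℤ_[ℓ]) = _
    rw [cyclotomicCharacter.toZModPow]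
    refine (modularCyclotomicCharacter.unique Qb _ _ fun t ht => ?_).symm
    have ht' := (mem_rootsOfUnity' _ t).mp ht
    show σ (t : Qb) = (t : Qb) ^ (k : ZMod (ℓ ^ R)).val
    rw [h _ ht', ZMod.val_natCast, ← pow_eq_pow_mod k ht']
  have hmem : GAL.cycQ ℓ σ - k ∈ RingHom.ker (PadicInt.toZModPow R : ℤ_[ℓ] →+* ZMod (ℓ ^ R)) := by
    rw [RingHom.mem_ker, map_sub, h1, map_natCast, sub_self]
  rw [PadicInt.ker_toZModPow, Ideal.mem_span_singleton'] at hmem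
  obtain ⟨y, hy⟩ := hmem
  exact ⟨y, by rw [mul_comm, hy, add_sub_cancel]⟩

end Fermat.Agent.Mazur
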