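import Fermat.Agent.Mazur.Points
import Fermat.Agent.Mazur.Descent.RankZero
import Fermat.Agent.Mazur.Component.LatticeCard
import Fermat.Agent.Mazur.Odd.Cyclo

/-!
# A plane inside the Tate module of `J₀(p)`: counts and the line at `ℓ`

`ρ` is a plane over a field `K` finite over `ℚ_ℓ` with determinant cyclotomic, `Λ` a stable lattice,
`τ R` embeds `Λ/ℓ^R` in `J₀(p)`. The subgroup generated by the `σ x - x`, `σ` in inertia at `ℓ`,
is the kernel of reduction (hypothesis `conn`), whence inertia moves exactly one line.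
-/

set_option autoImplicit false
set_option linter.style.haveILetI false

noncomputable section

open ModularCurve

namespace Fermat.Agent.Mazur

open Fermat.Agent.FlatTangent ExtCitation Component

/-- The Galois action on `J₀(p)` by endomorphisms. -/
abbrev jRep (p : ℕ) [NeZero p] : Gal →* AddMonoid.End (JZero p) :=
  DistribMulAction.toAddMonoidEnd Gal (JZero p)

/-- The subgroup generated by the differences under inertia at `ℓ`. -/
def iClos (ℓ : ℕ) [Fact ℓ.Prime] {p : ℕ} [NeZero p] (N : AddSubgroup (JZero p)) :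
    AddSubgroup (JZero p) :=
  AddSubgroup.closure {x | ∃ σ ∈ inert ℓ, ∃ y ∈ N, σ • y - y = x}

variable (p : Nat.Primes) [NeZero (p : ℕ)] {ℓ : ℕ} [hℓ : Fact ℓ.Prime]
  {K : Type} [Field K] [Algebra ℚ_[ℓ] K] [FiniteDimensional ℚ_[ℓ] K]
  {W : Type} [AddCommGroup W] [Module K W] [Module ℚ_[ℓ] W] [IsScalarTower ℚ_[ℓ] K W]
  [Module ℤ_[ℓ] W] [IsScalarTower ℤ_[ℓ] ℚ_[ℓ] W]

/-- A component of the Tate module of `J₀(p)` at a residually Eisenstein prime over odd `ℓ`. -/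
structure PlaneDatum (ρ : Gal →* Module.End K W) (Λ : Submodule ℤ_[ℓ] W) (a : K) where
  odd : ℓ ≠ 2
  ne_level : ℓ ≠ p
  rank : Module.finrank K W = 2
  fin : Module.Finite ℤ_[ℓ] Λ
  stable : ∀ g, ∀ x ∈ Λ, ρ g x ∈ Λ
  span : ∀ w : W, ∃ k : ℕ, ℓ ^ k • w ∈ Λ
  smul_mem : ∀ x ∈ Λ, a • x ∈ Λ
  sq_ne : a * a ≠ (((ℓ + 1) ^ 2 : ℕ) : K)
  det : ∀ g, LinearMap.det (ρ g) = algebraMap ℚ_[ℓ] K (GAL.cycQ ℓ g : ℚ_[ℓ])
  unip : ∀ σ ∈ Descent.inertP p, ∀ w, ρ σ (ρ σ w - w) = ρ σ w - w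
  τ : ℕ → Λ →+ JZero (p : ℕ)
  ker : ∀ R x, τ R x = 0 ↔ ∃ y, x = ℓ ^ R • y
  equiv : ∀ R g (x : Λ), g • τ R x = τ R ⟨ρ g x, stable g x x.2⟩
  hecke : ∀ R (x : Λ),
    heckeOp (p : ℕ) (heckeGen ⟨ℓ, hℓ.out⟩) (τ R x) = τ R ⟨a • x, smul_mem x x.2⟩
  eig : ∀ R (h : Descent.IsStable (jRep (p : ℕ)) (τ R).range),
    Descent.Eig (cycloChar ℓ) (Descent.subRep (jRep (p : ℕ)) (τ R).range h)
  conn : ∀ R, ∀ x ∈ (τ R).range, x ∈ redKer p ℓ → x ∈ iClos ℓ (τ R).range
  card_conn : ∀ R, Nat.card ↥(iClos ℓ (τ R).range) *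
      Nat.card ↥((τ R).range ⊓ Descent.fixOne (jRep (p : ℕ)) complexConjugation) ≤
    Nat.card ↥(τ R).range

namespace PlaneDatum

variable {p} {ρ : Gal →* Module.End K W} {Λ : Submodule ℤ_[ℓ] W} {a : K} (D : PlaneDatum p ρ Λ a)

include D

theorem charZero : CharZero K :=
  charZero_of_injective_algebraMap (algebraMap ℚ_[ℓ] K).injective

theorem finW : FiniteDimensional K W :=
  Module.finite_of_finrank_pos (by rw [D.rank]; norm_num)

omit D in
theorem nsmul_cancel [CharZero K] (k : ℕ) {x y : W} (h : ℓ ^ k • x = ℓ ^ k • y) : x = y := by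
  rw [← Nat.cast_smul_eq_nsmul K, ← Nat.cast_smul_eq_nsmul K] at h
  exact smul_right_injective W
    (Nat.cast_ne_zero.mpr (pow_ne_zero k hℓ.out.ne_zero) : ((ℓ ^ k : ℕ) : K) ≠ 0) h

theorem range_stable (R : ℕ) : Descent.IsStable (jRep (p : ℕ)) (D.τ R).range := by
  rintro g _ ⟨x, rfl⟩
  exact ⟨_, (D.equiv R g x).symm⟩

theorem pow_smul_τ (R : ℕ) (x : Λ) : ℓ ^ R • D.τ R x = 0 := by
  rw [← map_nsmul, D.ker]
  exact ⟨x, rfl⟩

theorem finite_range (R : ℕ) : Finite ↥(D.τ R).range := by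
  have h := HK.finite_jZero_nsmul_eq_zero (p : ℕ) (ℓ ^ R)
  refine (h.subset ?_).to_subtype
  rintro _ ⟨x, rfl⟩
  exact D.pow_smul_τ R x

/-- Some power of `ℓ` carries the lattice into any submodule spanning `W`. -/
theorem exists_uniform (P : W → Prop) (h0 : P 0) (hadd : ∀ {x y}, P x → P y → P (x + y))
    (hsmul : ∀ (c : ℤ_[ℓ]) {x}, P x → P (c • x)) (h : ∀ w : W, ∃ k : ℕ, P (ℓ ^ k • w)) :
    ∃ k : ℕ, ∀ x ∈ Λ, P (ℓ ^ k • x) := by
  classical
  obtain ⟨s, hs⟩ := (Module.Finite.iff_fg.mp D.fin : Λ.FG)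
  choose k hk using h
  refine ⟨s.sup k, fun x hx => ?_⟩
  rw [← hs] at hx
  induction hx using Submodule.span_induction with
  | mem x hx =>
    obtain ⟨j, hj⟩ := Nat.exists_eq_add_of_le (Finset.le_sup (f := k) hx)
    rw [hj, add_comm, pow_add, ← smul_smul, ← Nat.cast_smul_eq_nsmul ℤ_[ℓ] (ℓ ^ j)]
    exact hsmul _ (hk x)
  | zero => rwa [smul_zero]
  | add x y _ _ hx hy => rw [smul_add]; exact hadd hx hy
  | smul c x _ hx => rw [smul_comm]; exact hsmul c hx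

/-- Multiplication by a non-zero element of `K` has bounded cokernel on the lattice. -/
theorem exists_pow_mem_smul {c : K} (hc : c ≠ 0) :
    ∃ k : ℕ, ∀ x ∈ Λ, ∃ y ∈ Λ, ℓ ^ k • x = c • y := by
  refine D.exists_uniform (fun w => ∃ y ∈ Λ, w = c • y) ⟨0, Λ.zero_mem, (smul_zero c).symm⟩
    (fun ⟨y, hy, e⟩ ⟨y', hy', e'⟩ => ⟨y + y', Λ.add_mem hy hy', by rw [e, e', smul_add]⟩)
    (fun r x ⟨y, hy, e⟩ => ⟨r • y, Λ.smul_mem r hy, ?_⟩) fun w => ?_
  · rw [e, padic_smul_eq, padic_smul_eq, smul_comm]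
  · obtain ⟨k, hk⟩ := D.span (c⁻¹ • w)
    refine ⟨k, _, hk, ?_⟩
    rw [smul_comm, smul_inv_smul₀ hc]

/-- An `ℓ`-adic scalar acts on the level `R` by an integer. -/
theorem τ_padic_smul (R : ℕ) (c : ℤ_[ℓ]) (x : Λ) : D.τ R (c • x) = c.appr R • D.τ R x := by
  obtain ⟨z, hz⟩ := Ideal.mem_span_singleton.mp (PadicInt.appr_spec R c)
  rw [← map_nsmul, ← sub_eq_zero, ← map_sub, D.ker]
  refine ⟨z • x, ?_⟩
  rw [← Nat.cast_smul_eq_nsmul ℤ_[ℓ] (c.appr R), ← sub_smul, hz,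
    ← Nat.cast_smul_eq_nsmul ℤ_[ℓ] (ℓ ^ R), smul_smul, Nat.cast_pow]

/-- The lattice points in a subspace, at level `R`. -/
def img (S : Submodule K W) (R : ℕ) : AddSubgroup (JZero (p : ℕ)) :=
  ((S.toAddSubgroup).comap Λ.subtype.toAddMonoidHom).map (D.τ R)

theorem mem_img {S : Submodule K W} {R : ℕ} {j : JZero (p : ℕ)} :
    j ∈ D.img S R ↔ ∃ x : Λ, (x : W) ∈ S ∧ D.τ R x = j := Iff.rfl

theorem img_top (R : ℕ) : D.img ⊤ R = (D.τ R).range := by
  ext j
  simp [mem_img]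

theorem img_le_range (S : Submodule K W) (R : ℕ) : D.img S R ≤ (D.τ R).range := by
  rintro _ ⟨x, -, rfl⟩
  exact ⟨x, rfl⟩

/-- A subspace meets the lattice in a direct summand. -/
theorem card_img (S : Submodule K W) (R : ℕ) :
    Nat.card ↥(D.img S R) =
      ℓ ^ (R * (Module.finrank ℚ_[ℓ] K * Module.finrank K S)) := by
  haveI := D.charZero
  haveI := D.fin
  let ΛS : Submodule ℤ_[ℓ] W :=
    { S.toAddSubgroup ⊓ Λ.toAddSubgroup with
      smul_mem' := fun c x hx => ⟨by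
        show c • x ∈ S
        rw [padic_smul_eq, ← IsScalarTower.algebraMap_smul K]
        exact S.smul_mem _ hx.1, Λ.smul_mem c hx.2⟩ }
  haveI : IsNoetherian ℤ_[ℓ] Λ := isNoetherian_of_isNoetherianRing_of_finite _ _
  haveI : Module.Finite ℤ_[ℓ] ΛS :=
    Module.Finite.of_injective (Submodule.inclusion (show ΛS ≤ Λ from fun x hx => hx.2))
      (Submodule.inclusion_injective _)
  let π : ΛS →+ JZero (p : ℕ) :=
    (D.τ R).comp (Submodule.inclusion (show ΛS ≤ Λ from fun x hx => hx.2)).toAddMonoidHom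
  have hc := natCard_range_eq_pow (S.restrictScalars ℚ_[ℓ]) ΛS (fun x hx => hx.1)
    (fun w hw => by
      obtain ⟨k, hk⟩ := D.span w
      exact ⟨k, S.toAddSubgroup.nsmul_mem hw _, hk⟩) R π (fun x => by
      show D.τ R _ = 0 ↔ _
      rw [D.ker]
      constructor
      · rintro ⟨y, hy⟩
        have h1 : (x : W) = ℓ ^ R • (y : W) := congrArg Subtype.val hy
        refine ⟨⟨y.1, ?_, y.2⟩, Subtype.ext h1⟩
        have h2 : ((ℓ ^ R : ℕ) : K) • (y : W) ∈ S := by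
          rw [Nat.cast_smul_eq_nsmul, ← h1]; exact x.2.1
        exact (S.smul_mem_iff (Nat.cast_ne_zero.mpr (pow_ne_zero R hℓ.out.ne_zero))).mp h2
      · rintro ⟨y, rfl⟩
        exact ⟨⟨y.1, y.2.2⟩, Subtype.ext rfl⟩)
  have hr : π.range = D.img S R := by
    ext j
    constructor
    · rintro ⟨x, rfl⟩; exact ⟨⟨x.1, x.2.2⟩, x.2.1, rfl⟩
    · rintro ⟨x, hx, rfl⟩; exact ⟨⟨x.1, hx, x.2⟩, rfl⟩
  rw [hr] at hc
  rw [hc]
  congr 2
  exact (Module.finrank_mul_finrank ℚ_[ℓ] K S).symm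

theorem card_range (R : ℕ) :
    Nat.card ↥(D.τ R).range = ℓ ^ (R * (Module.finrank ℚ_[ℓ] K * 2)) := by
  rw [← D.img_top, D.card_img, finrank_top, D.rank]

/-- The cyclotomic character of complex conjugation. -/
theorem cycQ_conj : GAL.cycQ ℓ complexConjugation = -1 := by
  have h2 : GAL.cycQ ℓ complexConjugation * GAL.cycQ ℓ complexConjugation = 1 := by
    rw [← map_mul, complexConjugation_mul_self, map_one]
  refine (mul_self_eq_one_iff.mp h2).resolve_left fun h1 => ?_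
  obtain ⟨y, hy⟩ := cycQ_modEq ℓ (R := 1) (σ := complexConjugation)
    (k := (cycloChar ℓ complexConjugation : ZMod ℓ).val)
    (fun ζ hζ => Descent.apply_eq_pow_cycloChar ℓ _ (by rwa [pow_one] at hζ))
  have h := congrArg (PadicInt.toZMod (p := ℓ)) hy
  rw [h1, map_one, map_add, map_mul, map_natCast, pow_one, map_natCast, ZMod.natCast_self, zero_mul,
    add_zero, ZMod.natCast_zmod_val, Descent.cycloChar_complexConjugation] at h
  haveI : Fact (2 < ℓ) := ⟨lt_of_le_of_ne hℓ.out.two_le (Ne.symm D.odd)⟩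
  exact ZMod.neg_one_ne_one h.symm

/-- The points fixed by complex conjugation fill at least half of the plane. -/
theorem pow_le_card_fixConj (R : ℕ) : ℓ ^ (R * Module.finrank ℚ_[ℓ] K) ≤
    Nat.card ↥((D.τ R).range ⊓ Descent.fixOne (jRep (p : ℕ)) complexConjugation) := by
  haveI := D.charZero
  haveI := D.finW
  haveI := D.finite_range R
  haveI : Finite ↥((D.τ R).range ⊓ Descent.fixOne (jRep (p : ℕ)) complexConjugation) :=
    Finite.of_injective (AddSubgroup.inclusion inf_le_left) (AddSubgroup.inclusion_injective _)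
  set c := ρ complexConjugation
  have hcc : c * c = 1 := by rw [← map_mul, complexConjugation_mul_self, map_one]
  obtain ⟨u, hu⟩ : ∃ u, c u ≠ -u := by
    by_contra h
    push Not at h
    have hd := D.det complexConjugation
    rw [D.cycQ_conj, show ρ complexConjugation = (-1 : K) • (1 : Module.End K W) from
      LinearMap.ext fun x => (h x).trans (by simp), LinearMap.det_smul, D.rank, map_one] at hd
    norm_num at hd
  let S : Submodule K W := LinearMap.ker (c - 1)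
  have hS : 1 ≤ Module.finrank K S := by
    refine Submodule.one_le_finrank_iff.mpr fun h => hu (eq_neg_of_add_eq_zero_right ?_)
    have hmem : u + c u ∈ S := by
      rw [LinearMap.mem_ker, LinearMap.sub_apply, Module.End.one_apply, map_add,
        ← Module.End.mul_apply, hcc, Module.End.one_apply]
      abel
    rw [h, Submodule.mem_bot] at hmem
    exact hmem
  refine le_trans (le_trans ?_ (D.card_img S R).ge) (AddSubgroup.card_le_of_le ?_)
  · exact Nat.pow_le_pow_right hℓ.out.pos (Nat.mul_le_mul_left _ (Nat.le_mul_of_pos_right _ hS))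
  · rintro _ ⟨x, hx, rfl⟩
    refine ⟨⟨x, rfl⟩, ?_⟩
    show complexConjugation • D.τ R x = D.τ R x
    rw [D.equiv]
    refine congrArg _ (Subtype.ext ?_)
    have hx' : c (x : W) - x = 0 := hx
    exact sub_eq_zero.mp hx'

omit D in
/-- The differences under inertia span the line at `ℓ`. -/
def line (_D : PlaneDatum p ρ Λ a) : Submodule K W :=
  Submodule.span K {w | ∃ σ ∈ inert ℓ, ∃ u, ρ σ u - u = w}

theorem sub_mem_line {σ : Gal} (hσ : σ ∈ inert ℓ) (w : W) : ρ σ w - w ∈ D.line :=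
  Submodule.subset_span ⟨σ, hσ, w, rfl⟩

theorem line_ne_bot : D.line ≠ ⊥ := by
  haveI := D.charZero
  intro h
  have h2 : ¬ ℓ ∣ 2 := fun hd =>
    D.odd ((Nat.prime_dvd_prime_iff_eq hℓ.out Nat.prime_two).mp hd)
  obtain ⟨σ, hσ, hσk⟩ := exists_inert_cycExp ℓ 1 h2
  have h1 : ρ σ = 1 := LinearMap.ext fun w => by
    have := D.sub_mem_line hσ w
    rw [h, Submodule.mem_bot, sub_eq_zero] at this
    exact this
  have hd := D.det σ
  rw [h1, map_one, eq_comm, map_eq_one_iff _ (algebraMap ℚ_[ℓ] K).injective] at hd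
  obtain ⟨y, hy⟩ := cycQ_modEq ℓ hσk
  rw [show GAL.cycQ ℓ σ = 1 from PadicInt.ext (hd.trans PadicInt.coe_one.symm)] at hy
  have h3 := congrArg (PadicInt.toZMod (p := ℓ)) hy
  rw [map_one, map_add, map_mul, map_natCast, pow_one, map_natCast, ZMod.natCast_self, zero_mul,
    add_zero, Nat.cast_ofNat] at h3
  exact one_ne_zero (α := ZMod ℓ) (by linear_combination -h3)

theorem iClos_le_img (R : ℕ) : iClos ℓ (D.τ R).range ≤ D.img D.line R := by
  refine (AddSubgroup.closure_le _).mpr ?_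
  rintro _ ⟨σ, hσ, _, ⟨x, rfl⟩, rfl⟩
  refine ⟨⟨ρ σ x, D.stable σ x x.2⟩ - x, D.sub_mem_line hσ x, ?_⟩
  rw [map_sub, ← D.equiv]

theorem line_ne_top : D.line ≠ ⊤ := by
  haveI := D.charZero
  intro htop
  let P : W → Prop := fun w =>
    ∃ h : w ∈ Λ, ∀ R, D.τ R ⟨w, h⟩ ∈ iClos ℓ (D.τ R).range
  have hP0 : P 0 := ⟨Λ.zero_mem, fun R => by
    rw [show (⟨0, Λ.zero_mem⟩ : Λ) = 0 from rfl, map_zero]; exact zero_mem _⟩
  have hPadd : ∀ {x y}, P x → P y → P (x + y) := fun {x y} ⟨hx, h⟩ ⟨hy, h'⟩ =>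
    ⟨Λ.add_mem hx hy, fun R => by
      rw [show (⟨x + y, Λ.add_mem hx hy⟩ : Λ) = ⟨x, hx⟩ + ⟨y, hy⟩ from rfl, map_add]
      exact add_mem (h R) (h' R)⟩
  have hPsmul : ∀ (c : ℤ_[ℓ]) {x}, P x → P (c • x) := fun c {x} ⟨hx, h⟩ =>
    ⟨Λ.smul_mem c hx, fun R => by
      rw [show (⟨c • x, Λ.smul_mem c hx⟩ : Λ) = c • ⟨x, hx⟩ from rfl, D.τ_padic_smul]
      exact nsmul_mem (h R) _⟩
  have hPgen : ∀ σ ∈ inert ℓ, ∀ u, ∃ k : ℕ, P (ℓ ^ k • (ρ σ u - u)) := by
    intro σ hσ u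
    obtain ⟨k, hk⟩ := D.span u
    have he : ℓ ^ k • (ρ σ u - u) = ρ σ (ℓ ^ k • u) - ℓ ^ k • u := by rw [nsmul_sub, map_nsmul]
    refine ⟨k, he ▸ Λ.sub_mem (D.stable σ _ hk) hk, fun R => ?_⟩
    refine AddSubgroup.subset_closure ⟨σ, hσ, D.τ R ⟨_, hk⟩, ⟨_, rfl⟩, ?_⟩
    rw [D.equiv, ← map_sub]
    exact congrArg _ (Subtype.ext he.symm)
  have hall : ∀ w : W, ∃ k : ℕ, P (ℓ ^ k • w) := by
    intro w
    have hw : w ∈ D.line := htop ▸ trivial
    suffices ∀ c : K, ∃ k : ℕ, P (ℓ ^ k • c • w) by simpa using this 1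
    induction hw using Submodule.span_induction with
    | mem x hx =>
      obtain ⟨σ, hσ, u, rfl⟩ := hx
      intro c
      rw [smul_sub, ← map_smul]
      exact hPgen σ hσ _
    | zero => exact fun c => ⟨0, by rwa [smul_zero, smul_zero]⟩
    | add x y _ _ hx hy =>
      intro c
      obtain ⟨i, hi⟩ := hx c
      obtain ⟨j, hj⟩ := hy c
      refine ⟨i + j, ?_⟩
      rw [smul_add, smul_add, pow_add]
      refine hPadd ?_ ?_
      · rw [mul_comm, ← smul_smul, ← Nat.cast_smul_eq_nsmul ℤ_[ℓ] (ℓ ^ j)]; exact hPsmul _ hi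
      · rw [← smul_smul, ← Nat.cast_smul_eq_nsmul ℤ_[ℓ] (ℓ ^ i)]; exact hPsmul _ hj
    | smul b x _ hx =>
      intro c
      rw [smul_smul]
      exact hx _
  obtain ⟨k, hk⟩ := D.exists_uniform P hP0 hPadd hPsmul hall
  set R := 2 * k + 1 with hR
  haveI := D.finite_range R
  -- the image of `ℓ ^ k` lies in the span of the differences
  let π : Λ →+ JZero (p : ℕ) := (D.τ R).comp (nsmulAddMonoidHom (ℓ ^ k))
  haveI := D.fin
  have hc := natCard_range_eq_pow (⊤ : Submodule ℚ_[ℓ] W) Λ (fun _ _ => trivial)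
    (fun w _ => D.span w) (R - k) π (fun x => by
      show D.τ R (ℓ ^ k • x) = 0 ↔ _
      rw [D.ker, show ℓ ^ R = ℓ ^ k * ℓ ^ (R - k) by rw [← pow_add]; congr 1; omega]
      refine exists_congr fun y => ⟨fun h => Subtype.ext ?_, fun h => by rw [h, smul_smul]⟩
      rw [← smul_smul] at h
      exact nsmul_cancel (K := K) k (congrArg Subtype.val h))
  have hWd : Module.finrank ℚ_[ℓ] (⊤ : Submodule ℚ_[ℓ] W) = Module.finrank ℚ_[ℓ] K * 2 := by
    rw [finrank_top, ← D.rank, Module.finrank_mul_finrank]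
  rw [hWd] at hc
  haveI : Finite ↥(iClos ℓ (D.τ R).range) := Finite.of_injective
    (fun x => (⟨x.1, D.img_le_range _ _ (D.iClos_le_img R x.2)⟩ : ↥(D.τ R).range))
    fun x y h => Subtype.ext (congrArg (fun z : ↥(D.τ R).range => (z : JZero (p : ℕ))) h)
  have hle : Nat.card π.range ≤ Nat.card ↥(iClos ℓ (D.τ R).range) := by
    refine AddSubgroup.card_le_of_le ?_
    rintro _ ⟨x, rfl⟩
    exact (hk x x.2).2 R
  have hd : 0 < Module.finrank ℚ_[ℓ] K := Module.finrank_pos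
  have h := (Nat.mul_le_mul hle (D.pow_le_card_fixConj R)).trans (D.card_conn R)
  rw [hc, D.card_range, ← pow_add, Nat.pow_le_pow_iff_right hℓ.out.one_lt,
    show R - k = k + 1 by omega] at h
  rw [hR] at h
  nlinarith

theorem finrank_line : Module.finrank K D.line = 1 := by
  haveI := D.finW
  have h1 : 1 ≤ Module.finrank K D.line := Submodule.one_le_finrank_iff.mpr D.line_ne_bot
  have h2 := Submodule.finrank_lt D.line_ne_top
  rw [D.rank] at h2
  omega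

theorem mem_line_of_approx {w : W} (hw : w ∈ Λ)
    (h : ∀ R : ℕ, ∃ x ∈ Λ, x ∈ D.line ∧ ∃ y ∈ Λ, w = x + ℓ ^ R • y) : w ∈ D.line := by
  haveI := D.fin
  let LΛ : Submodule ℤ_[ℓ] Λ :=
    { (D.line.toAddSubgroup).comap Λ.subtype.toAddMonoidHom with
      smul_mem' := fun c x hx => by
        show c • (x : W) ∈ D.line
        rw [padic_smul_eq, ← IsScalarTower.algebraMap_smul K]
        exact D.line.smul_mem _ hx }
  have hne : Ideal.span {(ℓ : ℤ_[ℓ])} ≠ ⊤ := by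
    rw [Ne, Ideal.span_singleton_eq_top]
    exact (PadicInt.prime_p (p := ℓ)).not_unit
  have h0 : LΛ.mkQ ⟨w, hw⟩ ∈ (⊥ : Submodule ℤ_[ℓ] (Λ ⧸ LΛ)) := by
    rw [← Ideal.iInf_pow_smul_eq_bot_of_isLocalRing (M := Λ ⧸ LΛ) _ hne, Submodule.mem_iInf]
    intro R
    obtain ⟨x, hx, hxL, y, hy, he⟩ := h R
    have e : (⟨w, hw⟩ : Λ) = ⟨x, hx⟩ + ((ℓ : ℤ_[ℓ]) ^ R) • (⟨y, hy⟩ : Λ) := by
      rw [← Nat.cast_pow, Nat.cast_smul_eq_nsmul]
      exact Subtype.ext he
    rw [e, map_add, map_smul, show LΛ.mkQ ⟨x, hx⟩ = 0 from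
      (Submodule.Quotient.mk_eq_zero _).mpr hxL, zero_add]
    exact Submodule.smul_mem_smul (Ideal.pow_mem_pow (Ideal.mem_span_singleton_self _) R) trivial
  rw [Submodule.mem_bot, Submodule.mkQ_apply, Submodule.Quotient.mk_eq_zero] at h0
  exact h0

end PlaneDatum

end Fermat.Agent.Mazur
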