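import Fermat.Agent.Mazur.Odd.Datum
import Fermat.Agent.Mazur.Component.BadPrime

/-!
# A plane inside the Tate module of `J₀(p)`: the level of the descent

The connected-étale data at `ℓ`, the bounds on rational points and at `p`, hence an `OddLevel` for
every `R`.
-/

set_option autoImplicit false
set_option linter.style.haveILetI false

noncomputable section

open ModularCurve

namespace Fermat.Agent.Mazur

open Fermat.Agent.FlatTangent ExtCitation Component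

namespace PlaneDatum

variable {p : Nat.Primes} [NeZero (p : ℕ)] {ℓ : ℕ} [hℓ : Fact ℓ.Prime]
  {K : Type} [Field K] [Algebra ℚ_[ℓ] K] [FiniteDimensional ℚ_[ℓ] K]
  {W : Type} [AddCommGroup W] [Module K W] [Module ℚ_[ℓ] W] [IsScalarTower ℚ_[ℓ] K W]
  [Module ℤ_[ℓ] W] [IsScalarTower ℤ_[ℓ] ℚ_[ℓ] W]
  {ρ : Gal →* Module.End K W} {Λ : Submodule ℤ_[ℓ] W} {a : K} (D : PlaneDatum p ρ Λ a)

include D

omit D in
theorem algebraMap_padic_smul (c : ℤ_[ℓ]) (w : W) :
    algebraMap ℚ_[ℓ] K (c : ℚ_[ℓ]) • w = c • w := by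
  rw [IsScalarTower.algebraMap_smul, padic_smul_eq]

theorem line_stable {g : Gal} (hg : g ∈ dec ℓ) {x : W} (hx : x ∈ D.line) :
    ρ g x ∈ D.line := by
  induction hx using Submodule.span_induction with
  | mem x hx =>
    obtain ⟨σ, hσ, u, rfl⟩ := hx
    have h := D.sub_mem_line (Galois.inertia_normal_in_decomposition hσ hg) (ρ g u)
    rwa [← Module.End.mul_apply (ρ (g * σ * g⁻¹)), ← map_mul, inv_mul_cancel_right, map_mul,
      Module.End.mul_apply, ← map_sub] at h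
  | zero => rw [map_zero]; exact zero_mem _
  | add x y _ _ hx hy => rw [map_add]; exact add_mem hx hy
  | smul b x _ hx => rw [map_smul]; exact D.line.smul_mem b hx

/-- An element of the decomposition group in a basis adapted to the line. -/
theorem exists_eigen {g : Gal} (hg : g ∈ dec ℓ) : ∃ μ ν : K,
    μ * ν = algebraMap ℚ_[ℓ] K (GAL.cycQ ℓ g : ℚ_[ℓ]) ∧
      (∀ x ∈ D.line, ρ g x = μ • x) ∧ ∀ w, ρ g w - ν • w ∈ D.line := by
  haveI := D.finW
  obtain ⟨⟨v, hv⟩, hv0, hspan⟩ := finrank_eq_one_iff'.mp D.finrank_line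
  have hv0' : v ≠ 0 := fun h => hv0 (Subtype.ext h)
  have hLv : ∀ x ∈ D.line, ∃ c : K, c • v = x := fun x hx => by
    obtain ⟨c, hc⟩ := hspan ⟨x, hx⟩
    exact ⟨c, congrArg Subtype.val hc⟩
  obtain ⟨u, -, hu⟩ := SetLike.exists_of_lt (lt_top_iff_ne_top.mpr D.line_ne_top)
  have hli : LinearIndependent K ![v, u] := LinearIndependent.pair_iff.mpr fun s t h => by
    have ht : t = 0 := by
      by_contra ht
      refine hu ?_
      have : u = t⁻¹ • (-(s • v)) := by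
        rw [← eq_neg_of_add_eq_zero_right h, inv_smul_smul₀ ht]
      rw [this]
      exact D.line.smul_mem _ (neg_mem (D.line.smul_mem _ hv))
    rw [ht, zero_smul, add_zero] at h
    exact ⟨(smul_eq_zero.mp h).resolve_right hv0', ht⟩
  let b := basisOfLinearIndependentOfCardEqFinrank hli (by rw [D.rank]; rfl)
  have hb0 : b 0 = v := by simp [b]
  have hb1 : b 1 = u := by simp [b]
  obtain ⟨μ, hμ⟩ := hLv _ (D.line_stable hg hv)
  have hcoord : ∀ w, w = b.repr w 0 • v + b.repr w 1 • u := fun w => by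
    conv_lhs => rw [← b.sum_repr w, Fin.sum_univ_two, hb0, hb1]
  refine ⟨μ, b.repr (ρ g u) 1, ?_, fun x hx => ?_, fun w => ?_⟩
  · rw [← D.det, ← LinearMap.det_toMatrix b, Matrix.det_fin_two]
    simp only [LinearMap.toMatrix_apply, hb0, hb1]
    rw [← hμ, map_smul, ← hb0, b.repr_self]
    simp
  · obtain ⟨c, rfl⟩ := hLv x hx
    rw [map_smul, ← hμ, smul_comm]
  · have e : ρ g w - b.repr (ρ g u) 1 • w = b.repr w 0 • (ρ g v - b.repr (ρ g u) 1 • v) +
        b.repr w 1 • (b.repr (ρ g u) 0 • v) := by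
      generalize hν : b.repr (ρ g u) 1 = ν
      generalize hα : b.repr (ρ g u) 0 = α
      have hgu : ρ g u = α • v + ν • u := by rw [← hν, ← hα]; exact hcoord _
      conv_lhs => rw [hcoord w, map_add, map_smul, map_smul, hgu]
      module
    rw [e]
    exact add_mem (D.line.smul_mem _ (sub_mem (D.line_stable hg hv) (D.line.smul_mem _ hv)))
      (D.line.smul_mem _ (D.line.smul_mem _ hv))

/-- On the line inertia is cyclotomic. -/
theorem inert_line {σ : Gal} (hσ : σ ∈ inert ℓ) {x : W} (hx : x ∈ D.line) :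
    ρ σ x = algebraMap ℚ_[ℓ] K (GAL.cycQ ℓ σ : ℚ_[ℓ]) • x := by
  obtain ⟨μ, ν, hμν, hL, hQ⟩ := D.exists_eigen (inert_le_dec hσ)
  obtain ⟨w, -, hw⟩ := SetLike.exists_of_lt (lt_top_iff_ne_top.mpr D.line_ne_top)
  have hν : ν = 1 := by
    by_contra hν
    refine hw ((D.line.smul_mem_iff (sub_ne_zero.mpr (Ne.symm hν))).mp ?_)
    have := sub_mem (hQ w) (D.sub_mem_line hσ w)
    rwa [sub_sub_sub_cancel_left, ← one_smul K w, smul_smul, ← sub_smul, mul_one] at this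
  rw [hL x hx, ← hμν, hν, mul_one]

/-- The Frobenius relation modulo the line. -/
theorem frob_mem_line {F : Gal} (hF : (plc ℓ).IsFrobeniusAt F ℓ) (w : W) :
    ρ F (ρ F w) - a • ρ F w + ℓ • w ∈ D.line := by
  haveI := D.charZero
  obtain ⟨k, hk⟩ := D.span w
  suffices ρ F (ρ F (ℓ ^ k • w)) - a • ρ F (ℓ ^ k • w) + ℓ • ℓ ^ k • w ∈ D.line by
    rw [map_nsmul, map_nsmul, smul_comm a, smul_comm ℓ, ← nsmul_sub, ← nsmul_add,
      ← Nat.cast_smul_eq_nsmul K] at this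
    exact (D.line.smul_mem_iff (Nat.cast_ne_zero.mpr (pow_ne_zero k hℓ.out.ne_zero))).mp this
  generalize hx : ℓ ^ k • w = x at hk ⊢
  have hmem : ρ F (ρ F x) - a • ρ F x + ℓ • x ∈ Λ :=
    Λ.add_mem (Λ.sub_mem (D.stable _ _ (D.stable _ _ hk)) (D.smul_mem _ (D.stable _ _ hk)))
      (Λ.toAddSubgroup.nsmul_mem hk ℓ)
  refine D.mem_line_of_approx hmem fun R => ?_
  have hred := frob_quad_mem_redKer D.ne_level hF (D.τ R ⟨x, hk⟩)
  have hT : heckeOperatorBar (p : ℕ) ⟨ℓ, hℓ.out⟩ (F • D.τ R ⟨x, hk⟩) =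
      D.τ R ⟨a • ρ F x, D.smul_mem _ (D.stable _ _ hk)⟩ := by
    rw [D.equiv]
    letI := heckeModuleBar (p : ℕ)
    exact (heckeModuleBar_heckeGen_smul (HK.Corr.heckeOperatorsCommuteBar _) _ _).symm.trans
      (D.hecke R ⟨ρ F x, D.stable _ _ hk⟩)
  have heq : F • F • D.τ R ⟨x, hk⟩ -
      heckeOperatorBar (p : ℕ) ⟨ℓ, hℓ.out⟩ (F • D.τ R ⟨x, hk⟩) + ℓ • D.τ R ⟨x, hk⟩ =
        D.τ R ⟨_, hmem⟩ := by
    rw [hT, D.equiv, D.equiv, ← map_sub, ← map_nsmul, ← map_add]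
    rfl
  rw [heq] at hred
  obtain ⟨y, hy, hyx⟩ := D.iClos_le_img R (D.conn R _ ⟨_, rfl⟩ hred)
  rw [← sub_eq_zero, ← map_sub, D.ker] at hyx
  obtain ⟨z, hz⟩ := hyx
  refine ⟨y, y.2, hy, -z, Λ.neg_mem z.2, ?_⟩
  have h1 : (y : W) - (ρ F (ρ F x) - a • ρ F x + ℓ • x) = ℓ ^ R • (z : W) :=
    congrArg Subtype.val hz
  rw [smul_neg, ← h1]
  abel

/-- The inverse of Frobenius on the line, up to the level. -/
theorem frobInv_line {F : Gal} (hF : (plc ℓ).IsFrobeniusAt F ℓ) {R : ℕ}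
    (hfix : ∀ ζ : Qb, ζ ^ ℓ ^ R = 1 → F ζ = ζ) {x : W} (hx : x ∈ D.line) (hxΛ : x ∈ Λ) :
    ∃ y ∈ Λ, ρ F⁻¹ (ρ F⁻¹ x) - a • ρ F⁻¹ x + ℓ • x = ℓ ^ R • y := by
  haveI := D.charZero
  obtain ⟨μ, ν, hμν, hL, hQ⟩ := D.exists_eigen hF.mem_decompositionSubgroup
  have hchar : ν * ν - a * ν + (ℓ : K) = 0 := by
    obtain ⟨w, -, hw⟩ := SetLike.exists_of_lt (lt_top_iff_ne_top.mpr D.line_ne_top)
    by_contra hne
    refine hw ((D.line.smul_mem_iff hne).mp ?_)
    have h1 := D.frob_mem_line hF w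
    have h2 : ρ F (ρ F w) - (ν * ν) • w ∈ D.line := by
      have := add_mem (hQ (ρ F w)) (D.line.smul_mem ν (hQ w))
      rwa [smul_sub, smul_smul, sub_add_sub_cancel] at this
    have h3 : a • ρ F w - (a * ν) • w ∈ D.line := by
      have := D.line.smul_mem a (hQ w)
      rwa [smul_sub, smul_smul] at this
    have h4 := add_mem (sub_mem h1 h2) h3
    convert h4 using 1
    rw [add_smul, sub_smul, ← Nat.cast_smul_eq_nsmul K ℓ]
    abel
  set δ := algebraMap ℚ_[ℓ] K (GAL.cycQ ℓ F : ℚ_[ℓ]) with hδ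
  set δ' := algebraMap ℚ_[ℓ] K (GAL.cycQ ℓ F⁻¹ : ℚ_[ℓ]) with hδ'
  have hdd : δ' * δ = 1 := by
    rw [hδ, hδ', ← map_mul, ← PadicInt.coe_mul, ← map_mul, inv_mul_cancel, map_one,
      PadicInt.coe_one, map_one]
  have hμ : μ * (δ' * ν) = 1 := by rw [mul_left_comm, hμν, hdd]
  have hinv : ∀ y ∈ D.line, ρ F⁻¹ y = (δ' * ν) • y := fun y hy => by
    have e : y = ρ F ((δ' * ν) • y) := by
      rw [hL _ (D.line.smul_mem _ hy), smul_smul, hμ, one_smul]
    conv_lhs => rw [e, ← Module.End.mul_apply, ← map_mul, inv_mul_cancel, map_one,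
      Module.End.one_apply]
  obtain ⟨z, hz⟩ := cycQ_modEq ℓ (R := R) (k := 1) (σ := F⁻¹) fun ζ hζ => by
    conv_lhs => rw [← hfix ζ hζ, ← AlgEquiv.mul_apply, inv_mul_cancel, AlgEquiv.one_apply]
    rw [pow_one]
  have hzK : δ' = 1 + algebraMap ℚ_[ℓ] K (z : ℚ_[ℓ]) * ((ℓ ^ R : ℕ) : K) := by
    rw [hδ', hz, PadicInt.coe_add, PadicInt.coe_mul, PadicInt.coe_pow, PadicInt.coe_natCast,
      PadicInt.coe_natCast, map_add, map_mul, map_pow, map_natCast, map_natCast, Nat.cast_one,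
      Nat.cast_pow, mul_comm]
  refine ⟨z • (GAL.cycQ ℓ F • ρ F⁻¹ (ρ F⁻¹ x) - ℓ • x), Λ.smul_mem z (Λ.sub_mem
    (Λ.smul_mem _ (D.stable _ _ (D.stable _ _ hxΛ))) (Λ.toAddSubgroup.nsmul_mem hxΛ ℓ)), ?_⟩
  rw [hinv x hx, hinv _ (D.line.smul_mem _ hx), ← algebraMap_padic_smul (K := K) z,
    ← algebraMap_padic_smul (K := K) (GAL.cycQ ℓ F), ← Nat.cast_smul_eq_nsmul K ℓ,
    ← Nat.cast_smul_eq_nsmul K (ℓ ^ R), ← hδ]
  simp only [smul_smul, smul_sub, ← sub_smul, ← add_smul]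
  congr 1
  have hzK' : algebraMap ℚ_[ℓ] K (z : ℚ_[ℓ]) * ((ℓ ^ R : ℕ) : K) = δ' - 1 := by
    rw [hzK]; ring
  linear_combination (δ' : K) * hchar + (-(δ * δ' * δ' * ν * ν - (ℓ : K))) * hzK' +
    (-(δ' * ν * ν) * (δ' - 1)) * hdd

/-- The representation at the level `R`. -/
def levelRep (R : ℕ) : Gal →* AddMonoid.End ↥(D.τ R).range :=
  Descent.subRep (jRep (p : ℕ)) (D.τ R).range (D.range_stable R)

theorem coe_levelRep (R : ℕ) (g : Gal) (m : ↥(D.τ R).range) :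
    ((D.levelRep R g m : ↥(D.τ R).range) : JZero (p : ℕ)) = g • (m : JZero (p : ℕ)) := rfl

/-- The Hecke operator at `ℓ` at the level `R`. -/
def levelT (R : ℕ) : ↥(D.τ R).range →+ ↥(D.τ R).range :=
  ((heckeOp (p : ℕ) (heckeGen ⟨ℓ, hℓ.out⟩)).comp (D.τ R).range.subtype).codRestrict _ (by
    rintro ⟨_, x, rfl⟩
    exact ⟨_, (D.hecke R x).symm⟩)

theorem coe_levelT (R : ℕ) (m : ↥(D.τ R).range) :
    ((D.levelT R m : ↥(D.τ R).range) : JZero (p : ℕ)) =
      heckeOp (p : ℕ) (heckeGen ⟨ℓ, hℓ.out⟩) (m : JZero (p : ℕ)) := rfl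

/-- The connected part at the level `R`. -/
def levelC (R : ℕ) : AddSubgroup ↥(D.τ R).range :=
  (iClos ℓ (D.τ R).range).addSubgroupOf _

theorem iClos_stable (R : ℕ) {g : Gal} (hg : g ∈ dec ℓ) {x : JZero (p : ℕ)}
    (hx : x ∈ iClos ℓ (D.τ R).range) : g • x ∈ iClos ℓ (D.τ R).range := by
  induction hx using AddSubgroup.closure_induction with
  | mem x hx =>
    obtain ⟨σ, hσ, y, hy, rfl⟩ := hx
    refine AddSubgroup.subset_closure ⟨g * σ * g⁻¹, Galois.inertia_normal_in_decomposition hσ hg,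
      g • y, D.range_stable R g y hy, ?_⟩
    rw [← mul_smul, inv_mul_cancel_right, mul_smul, smul_sub]
  | zero => rw [show g • (0 : JZero (p : ℕ)) = 0 from smul_zero (A := JZero (p : ℕ)) g]; exact zero_mem _
  | add x y _ _ hx hy => rw [smul_add]; exact add_mem hx hy
  | neg x _ hx => rw [smul_neg]; exact neg_mem hx

theorem iClos_hecke (R : ℕ) {x : JZero (p : ℕ)} (hx : x ∈ iClos ℓ (D.τ R).range) :
    heckeOp (p : ℕ) (heckeGen ⟨ℓ, hℓ.out⟩) x ∈ iClos ℓ (D.τ R).range := by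
  induction hx using AddSubgroup.closure_induction with
  | mem x hx =>
    obtain ⟨σ, hσ, _, ⟨y, rfl⟩, rfl⟩ := hx
    refine AddSubgroup.subset_closure ⟨σ, hσ, _, ⟨_, (D.hecke R y).symm⟩, ?_⟩
    rw [map_sub, heckeOp_smul]
  | zero => rw [map_zero]; exact zero_mem _
  | add x y _ _ hx hy => rw [map_add]; exact add_mem hx hy
  | neg x _ hx => rw [map_neg]; exact neg_mem hx

/-- The connected-étale data at the level `R`. -/
theorem ordData (R : ℕ) {F : Gal} (hF : (plc ℓ).IsFrobeniusAt F ℓ)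
    (hfix : ∀ ζ : Qb, ζ ^ ℓ ^ R = 1 → F ζ = ζ) :
    Descent.OrdData ℓ (D.levelRep R) (D.levelC R) F (D.levelT R) R where
  kill := fun ⟨_, x, e⟩ => Subtype.ext (by subst e; exact D.pow_smul_τ R x)
  level := by
    haveI := D.finite_range R
    haveI : FF.IsFunctionField (AlgebraicClosure ℚ) (modularFunctionFieldBar (p : ℕ)) :=
      MF.Coeff.isFunctionField_laurentBaseChange _ _
    obtain ⟨E, hE, h⟩ := MW.jzero_finite_fixed_level (N := (p : ℕ)) MW.exists_unique_pole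
      (Set.toFinite ((D.τ R).range : Set (JZero (p : ℕ))))
    exact ⟨E, hE, fun σ hσ => AddMonoidHom.ext fun m => Subtype.ext
      (h σ ((IntermediateField.mem_fixingSubgroup_iff _ _).mp hσ) _ m.2)⟩
  unip σ hσ m := AddSubgroup.subset_closure ⟨σ, hσ, (m : JZero (p : ℕ)), m.2, rfl⟩
  cyc σ hσ m hm k hk := by
    refine Subtype.ext ?_
    rw [coe_levelRep, AddSubgroup.coe_nsmul]
    obtain ⟨x, hxL, hxm⟩ := D.iClos_le_img R hm
    obtain ⟨y, hy⟩ := cycQ_modEq ℓ hk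
    replace hxL : (x : W) ∈ D.line := hxL
    have hw : ρ σ (x : W) = k • (x : W) + ℓ ^ R • (y • (x : W)) := by
      rw [D.inert_line hσ hxL, algebraMap_padic_smul, hy, add_smul, Nat.cast_smul_eq_nsmul,
        ← smul_smul, ← Nat.cast_pow, Nat.cast_smul_eq_nsmul]
    rw [← show D.τ R x = (m : JZero (p : ℕ)) from hxm, D.equiv, ← map_nsmul, ← sub_eq_zero,
      ← map_sub, D.ker]
    refine ⟨y • x, Subtype.ext ?_⟩
    show ρ σ (x : W) - k • (x : W) = ℓ ^ R • (y • (x : W))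
    rw [hw, add_sub_cancel_left]
  mem_dec := hF.mem_decompositionSubgroup
  frob_fix := hfix
  comm g m := Subtype.ext (by rw [coe_levelT, coe_levelRep, coe_levelRep, coe_levelT, heckeOp_smul])
  stab_T m hm := D.iClos_hecke R hm
  stab m hm := D.iClos_stable R (inv_mem hF.mem_decompositionSubgroup) hm
  onC m hm := by
    refine Subtype.ext ?_
    obtain ⟨x, hxL, hxm⟩ := D.iClos_le_img R hm
    obtain ⟨y, hy, hxy⟩ := D.frobInv_line hF hfix hxL x.2
    rw [AddSubgroup.coe_add, AddSubgroup.coe_sub, coe_levelT, coe_levelRep, coe_levelRep,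
      AddSubgroup.coe_nsmul, ← show D.τ R x = (m : JZero (p : ℕ)) from hxm, D.equiv, D.equiv,
      D.hecke, ← map_sub, ← map_nsmul, ← map_add, ZeroMemClass.coe_zero, D.ker]
    exact ⟨⟨y, hy⟩, Subtype.ext hxy⟩
  onQuot m := by
    refine D.conn R _ ?_ ?_
    · exact (D.levelRep R F (D.levelRep R F m) - D.levelT R (D.levelRep R F m) + ℓ • m).2
    show ((D.levelRep R F (D.levelRep R F m) - D.levelT R (D.levelRep R F m) + ℓ • m :
      ↥(D.τ R).range) : JZero (p : ℕ)) ∈ redKer p ℓ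
    rw [AddSubgroup.coe_add, AddSubgroup.coe_sub, coe_levelT, coe_levelRep, coe_levelRep,
      AddSubgroup.coe_nsmul]
    convert frob_quad_mem_redKer D.ne_level hF (m : JZero (p : ℕ)) using 3
    letI := heckeModuleBar (p : ℕ)
    exact heckeModuleBar_heckeGen_smul (HK.Corr.heckeOperatorsCommuteBar _) _ _

end PlaneDatum

end Fermat.Agent.Mazur
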