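import Fermat.Agent.Mazur.Odd.Level
import Fermat.Agent.Mazur.Descent.OddLevel
import Fermat.Agent.Mazur.Descent.RankZero

/-!
# The descent on a plane at an odd Eisenstein prime

The bounds on rational points and at `p`, ramification at `p` (a plane unramified at `p` would
contradict the descent inequality), and the resulting rank zero element.
-/

set_option autoImplicit false
set_option linter.style.haveILetI false

noncomputable section

open ModularCurve

namespace Fermat.Agent.Mazur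

open Fermat.Agent.FlatTangent ExtCitation Component

/-- The operator of the descent in the Hecke algebra. -/
def opElt (ℓ : Nat.Primes) : HeckeAlg :=
  (heckeGen ℓ - (((ℓ : ℕ) + 1 : ℕ) : HeckeAlg)) *
    (heckeGen ℓ * heckeGen ℓ - ((((ℓ : ℕ) + 1) ^ 2 : ℕ) : HeckeAlg))

theorem heckeOp_opElt_mul (N : ℕ) [NeZero N] (ℓ : Nat.Primes) (t : HeckeAlg) (x : JZero N) :
    heckeOp N (opElt ℓ * t) x =
      Descent.OddLevel.opJ (heckeOp N (heckeGen ℓ)) (ℓ : ℕ) (heckeOp N t x) := by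
  letI := heckeModuleBar N
  simp only [Descent.OddLevel.opJ, AddMonoidHom.comp_apply, AddMonoidHom.sub_apply,
    heckeOp_apply, opElt]
  rw [mul_smul, mul_smul, sub_smul, sub_smul, mul_smul, Nat.cast_smul_eq_nsmul,
    Nat.cast_smul_eq_nsmul]
  rfl

namespace PlaneDatum

variable {p : Nat.Primes} [NeZero (p : ℕ)] {ℓ : ℕ} [hℓ : Fact ℓ.Prime]
  {K : Type} [Field K] [Algebra ℚ_[ℓ] K] [FiniteDimensional ℚ_[ℓ] K]
  {W : Type} [AddCommGroup W] [Module K W] [Module ℚ_[ℓ] W] [IsScalarTower ℚ_[ℓ] K W]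
  [Module ℤ_[ℓ] W] [IsScalarTower ℤ_[ℓ] ℚ_[ℓ] W]
  {ρ : Gal →* Module.End K W} {Λ : Submodule ℤ_[ℓ] W} {a : K} (D : PlaneDatum p ρ Λ a)

include D

/-- The points of the level killed by `ℓ ^ k` are few. -/
theorem card_le_pow {k R : ℕ} (A : AddSubgroup ↥(D.τ R).range) (hA : ∀ m ∈ A, ℓ ^ k • m = 0) :
    Nat.card A ≤ ℓ ^ (k * (Module.finrank ℚ_[ℓ] K * 2)) := by
  haveI := D.charZero
  haveI := D.finite_range R
  rcases Nat.le_total R k with hRk | hkR
  · refine (Nat.card_le_card_of_injective _ Subtype.val_injective).trans ?_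
    rw [D.card_range]
    exact Nat.pow_le_pow_right hℓ.out.pos (Nat.mul_le_mul_right _ hRk)
  haveI := D.fin
  let π : Λ →+ JZero (p : ℕ) := (D.τ R).comp (nsmulAddMonoidHom (ℓ ^ (R - k)))
  have hc := natCard_range_eq_pow (⊤ : Submodule ℚ_[ℓ] W) Λ (fun _ _ => trivial)
    (fun w _ => D.span w) k π (fun x => by
      show D.τ R (ℓ ^ (R - k) • x) = 0 ↔ _
      rw [D.ker, show ℓ ^ R = ℓ ^ (R - k) * ℓ ^ k by rw [← pow_add, Nat.sub_add_cancel hkR]]
      refine exists_congr fun y => ⟨fun h => Subtype.ext ?_, fun h => by rw [h, smul_smul]⟩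
      rw [← smul_smul] at h
      exact nsmul_cancel (K := K) (R - k) (congrArg Subtype.val h))
  rw [finrank_top, ← Module.finrank_mul_finrank ℚ_[ℓ] K W, D.rank] at hc
  rw [← hc]
  haveI : Finite π.range := Finite.of_injective
    (fun x => (⟨x.1, let ⟨y, hy⟩ := x.2; ⟨_, hy⟩⟩ : ↥(D.τ R).range))
    fun x y h => Subtype.ext (congrArg (fun z : ↥(D.τ R).range => (z : JZero (p : ℕ))) h)
  refine Nat.card_le_card_of_injective
    (fun m : A => (⟨((m : ↥(D.τ R).range) : JZero (p : ℕ)), ?_⟩ : π.range)) ?_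
  · obtain ⟨x, hx⟩ := (m : ↥(D.τ R).range).2
    have h0 : D.τ R (ℓ ^ k • x) = 0 := by
      rw [map_nsmul, hx, ← AddSubgroup.coe_nsmul, hA _ m.2, ZeroMemClass.coe_zero]
    obtain ⟨y, hy⟩ := (D.ker R _).mp h0
    refine ⟨y, ?_⟩
    show D.τ R (ℓ ^ (R - k) • y) = _
    rw [← hx]
    refine congrArg _ (Subtype.ext (?_ : (x : W) = _)).symm
    refine nsmul_cancel (ℓ := ℓ) (K := K) k ?_
    have hy' : ℓ ^ k • (x : W) = ℓ ^ R • (y : W) := congrArg Subtype.val hy
    rw [hy', SetLike.val_smul_of_tower, smul_smul, ← pow_add, Nat.add_sub_cancel' hkR]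
  · exact fun m n h => Subtype.ext (Subtype.ext
      (congrArg (fun z : π.range => (z : JZero (p : ℕ))) h))

/-- A subgroup containing the multiples by `ℓ ^ k` has bounded index. -/
theorem index_le_pow {k R : ℕ} (A : AddSubgroup ↥(D.τ R).range) (hA : ∀ m, ℓ ^ k • m ∈ A) :
    A.index ≤ ℓ ^ (k * (Module.finrank ℚ_[ℓ] K * 2)) := by
  haveI := D.finite_range R
  let f : ↥(D.τ R).range →+ ↥(D.τ R).range := nsmulAddMonoidHom (ℓ ^ k)
  refine le_trans ?_ (D.card_le_pow f.ker fun m hm => hm)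
  have h1 := AddSubgroup.card_mul_index A
  have h2 : Nat.card f.range * Nat.card f.ker = Nat.card ↥(D.τ R).range := by
    rw [← AddSubgroup.index_ker, mul_comm]
    exact AddSubgroup.card_mul_index _
  have h3 : Nat.card f.range ≤ Nat.card A :=
    AddSubgroup.card_le_of_le (by rintro _ ⟨m, rfl⟩; exact hA m)
  refine Nat.le_of_mul_le_mul_left ?_ (Nat.card_pos (α := A))
  rw [h1, ← h2]
  exact Nat.mul_le_mul_right _ h3

theorem coe_killExt (R : ℕ) {F : Gal} (hF : (plc ℓ).IsFrobeniusAt F ℓ)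
    (hfix : ∀ ζ : Qb, ζ ^ ℓ ^ R = 1 → F ζ = ζ) (x : Λ) :
    ((D.ordData R hF hfix).killExt ⟨D.τ R x, x, rfl⟩ : JZero (p : ℕ)) =
      D.τ R ⟨a • a • (x : W), D.smul_mem _ (D.smul_mem _ x.2)⟩ -
        ((ℓ + 1) ^ 2) • D.τ R x := by
  rw [Descent.OrdData.killExt_apply, AddSubgroup.coe_sub, AddSubgroup.coe_nsmul, coe_levelT,
    coe_levelT, D.hecke, D.hecke]

/-- `T² - (ℓ+1)²` has bounded cokernel at every level. -/
theorem exists_index_bound : ∃ k : ℕ, 0 < k ∧ ∀ (R : ℕ) {F : Gal}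
    (hF : (plc ℓ).IsFrobeniusAt F ℓ) (hfix : ∀ ζ : Qb, ζ ^ ℓ ^ R = 1 → F ζ = ζ),
      (D.ordData R hF hfix).killExt.range.index ≤ k := by
  obtain ⟨j, hj⟩ := D.exists_pow_mem_smul (sub_ne_zero.mpr D.sq_ne)
  refine ⟨ℓ ^ (j * (Module.finrank ℚ_[ℓ] K * 2)), pow_pos hℓ.out.pos _,
    fun R F hF hfix => D.index_le_pow _ ?_⟩
  rintro ⟨_, x, rfl⟩
  obtain ⟨y, hy, hxy⟩ := hj x x.2
  refine ⟨⟨D.τ R ⟨y, hy⟩, ⟨y, hy⟩, rfl⟩, Subtype.ext ?_⟩
  rw [D.coe_killExt R hF hfix, AddSubgroup.coe_nsmul, ← map_nsmul, ← map_nsmul, ← map_sub]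
  refine congrArg _ (Subtype.ext ?_)
  show a • a • y - ((ℓ + 1) ^ 2) • y = ℓ ^ j • (x : W)
  rw [hxy, sub_smul, mul_smul, Nat.cast_smul_eq_nsmul]

/-- The rational points of every level are killed by a fixed power of `ℓ`. -/
theorem exists_fixed_bound : ∃ B : ℕ, 0 < B ∧
    ∀ R, Nat.card ↥(Descent.fix (D.levelRep R) ⊤) ≤ B := by
  haveI := D.charZero
  have hne : a - ((ℓ + 1 : ℕ) : K) ≠ 0 := fun h => D.sq_ne (by
    rw [sub_eq_zero.mp h, Nat.cast_pow, sq])
  obtain ⟨k, hk⟩ := D.exists_pow_mem_smul hne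
  refine ⟨ℓ ^ (k * (Module.finrank ℚ_[ℓ] K * 2)), pow_pos hℓ.out.pos _,
    fun R => D.card_le_pow _ fun m hm => ?_⟩
  obtain ⟨F, hF, hfix⟩ := exists_frob_fix ℓ R
  have O := D.ordData R hF hfix
  have h2 : ¬ ℓ ∣ 2 := fun hd =>
    D.odd ((Nat.prime_dvd_prime_iff_eq hℓ.out Nat.prime_two).mp hd)
  obtain ⟨σ, hσ, hσk⟩ := exists_inert_cycExp ℓ R h2
  have hfixm : ∀ g, D.levelRep R g m = m := fun g => hm g trivial
  have hC := O.onQuot m
  rw [hfixm, hfixm] at hC
  have hzero : m - D.levelT R m + ℓ • m = 0 := by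
    set z := m - D.levelT R m + ℓ • m
    have hz : D.levelRep R σ z = z := by
      simp only [z, map_add, map_sub, map_nsmul, ← O.comm, hfixm]
    have h3 := O.cyc σ hσ z hC 2 hσk
    rw [hz, two_nsmul, left_eq_add] at h3
    exact h3
  obtain ⟨_, x, rfl⟩ := m
  obtain ⟨y, hy⟩ := (D.ker R (x - ⟨a • (x : W), D.smul_mem _ x.2⟩ + ℓ • x)).mp (by
    rw [map_add, map_sub, map_nsmul, ← D.hecke]
    exact congrArg Subtype.val hzero)
  have hy' : (x : W) - a • (x : W) + ℓ • (x : W) = ℓ ^ R • (y : W) := congrArg Subtype.val hy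
  obtain ⟨z, hz, hyz⟩ := hk y y.2
  refine Subtype.ext ?_
  rw [AddSubgroup.coe_nsmul, ← map_nsmul, ZeroMemClass.coe_zero, D.ker]
  refine ⟨-⟨z, hz⟩, Subtype.ext ?_⟩
  show ℓ ^ k • (x : W) = ℓ ^ R • -z
  refine smul_right_injective W hne ?_
  show (a - ((ℓ + 1 : ℕ) : K)) • ℓ ^ k • (x : W) = (a - ((ℓ + 1 : ℕ) : K)) • ℓ ^ R • -z
  rw [smul_comm _ (ℓ ^ k), smul_comm _ (ℓ ^ R), smul_neg, ← hyz,
    show (a - ((ℓ + 1 : ℕ) : K)) • (x : W) = -(ℓ ^ R • (y : W)) by
      rw [← hy', sub_smul, Nat.cast_smul_eq_nsmul, succ_nsmul]; abel,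
    smul_neg, smul_neg, smul_comm]

/-- The primes where the level can ramify. -/
theorem unr (R : ℕ) (q : Nat.Primes) (hqℓ : (q : ℕ) ≠ ℓ) (hqp : q ≠ p) :
    ∀ σ ∈ Descent.inertP q, D.levelRep R σ = 1 := fun σ hσ => AddMonoidHom.ext fun m => by
  refine Subtype.ext ((pointSetting ℓ).unr R (m : JZero (p : ℕ)) (fun g => ?_) q hqℓ hqp σ hσ)
  obtain ⟨x, hx⟩ := m.2
  rw [← hx, D.pow_smul_τ]
  exact smul_zero (A := JZero (p : ℕ)) g

/-- Inertia at `p` is not trivial on the plane. -/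
theorem exists_ramified : ∃ σ ∈ Descent.inertP p, ρ σ ≠ 1 := by
  by_contra hcon
  push Not at hcon
  obtain ⟨k, hk, hidx⟩ := D.exists_index_bound
  obtain ⟨B, hB, hfixed⟩ := D.exists_fixed_bound
  set R := k * B
  haveI := D.finite_range R
  obtain ⟨F, hF, hfix⟩ := exists_frob_fix ℓ R
  have O := D.ordData R hF hfix
  have hunr : ∀ q : Nat.Primes, (q : ℕ) ≠ ℓ → q ∉ (∅ : Finset Nat.Primes) →
      ∀ σ ∈ Descent.inertP q, D.levelRep R σ = 1 := by
    intro q hq _ σ hσ
    by_cases hqp : q = p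
    · rw [hqp] at hσ
      refine AddMonoidHom.ext fun m => Subtype.ext ?_
      obtain ⟨x, hx⟩ := m.2
      show σ • (m : JZero (p : ℕ)) = (m : JZero (p : ℕ))
      rw [← hx, D.equiv]
      refine congrArg _ (Subtype.ext (?_ : ρ σ (x : W) = (x : W)))
      rw [hcon σ hσ]
      rfl
    · exact D.unr R q hq hqp σ hσ
  have hb := Descent.descent_bound_of_conj D.odd ∅ (Descent.cycloChar_complexConjugation ℓ) _
    (O.locDom_sub hunr) (Descent.eig_subRep (D.eig R _) _ O.sub_stable)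
  obtain ⟨hne, hle⟩ := hb
  rw [Finset.prod_of_isEmpty, Finset.prod_of_isEmpty, mul_one, one_mul] at hle
  set fc := Descent.fixOne (Descent.subRep (D.levelRep R) O.sub O.sub_stable) complexConjugation
  have h1 : Nat.card fc ≤ B :=
    le_trans (le_trans (Nat.le_mul_of_pos_left _ (Nat.pos_of_ne_zero hne)) hle) (le_trans
      (Nat.card_le_card_of_injective
        (fun x => (⟨x.1.1, fun σ hσ => congrArg Subtype.val (x.2 σ hσ)⟩ :
          Descent.fix (D.levelRep R) ⊤))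
        fun x y h => Subtype.ext (Subtype.ext (congrArg (fun z : Descent.fix (D.levelRep R) ⊤ =>
          (z : ↥(D.τ R).range)) h))) (hfixed R))
  set fM := Descent.fixOne (D.levelRep R) complexConjugation
  have h2 : ℓ ^ (R * Module.finrank ℚ_[ℓ] K) ≤ Nat.card fM :=
    (D.pow_le_card_fixConj R).trans (Nat.card_le_card_of_injective
      (fun x => (⟨⟨x.1, x.2.1⟩, Subtype.ext x.2.2⟩ : fM))
      fun x y h => Subtype.ext (congrArg (fun z : fM => ((z : ↥(D.τ R).range) : JZero (p : ℕ))) h))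
  have h3 : Nat.card fM ≤ k * Nat.card fc := by
    have h := Descent.card_mul_relIndex (inf_le_left : fM ⊓ O.sub ≤ fM)
    rw [AddSubgroup.inf_relIndex_left] at h
    rw [← h, mul_comm]
    refine Nat.mul_le_mul (le_trans ?_ (hidx R hF hfix)) ?_
    · show _ ≤ O.sub.index
      rw [← AddSubgroup.relIndex_top_right O.sub]
      exact AddSubgroup.relIndex_le_of_le_right le_top AddSubgroup.index_ne_zero_of_finite
    · exact Nat.card_le_card_of_injective
        (fun x => (⟨⟨x.1, x.2.2⟩, Subtype.ext x.2.1⟩ : fc))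
        fun x y hxy => Subtype.ext (congrArg (fun z : fc => ((z : O.sub) : ↥(D.τ R).range)) hxy)
  have h4 : ℓ ^ R ≤ k * B := le_trans
    (Nat.pow_le_pow_right hℓ.out.pos (Nat.le_mul_of_pos_right _ Module.finrank_pos))
    (h2.trans (h3.trans (Nat.mul_le_mul_left _ h1)))
  exact absurd h4 (not_le.mpr (Nat.lt_pow_self hℓ.out.one_lt))

/-- The classes at `p` and the fixed points of inertia at `p`. -/
theorem exists_at_p : ∃ w : ℕ, 0 < w ∧ ∀ R,
    ℓ ^ (R * Module.finrank ℚ_[ℓ] K) ≤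
        Nat.card ↥(Descent.fix (D.levelRep R) (Descent.inertP p)) ∧
      ∀ c ∈ Descent.Z1 (D.levelRep R), (∃ E : IntermediateField ℚ Qb, FiniteDimensional ℚ E ∧
          ∀ σ ∈ E.fixingSubgroup, c σ = 0) →
        ∃ m, ∀ σ ∈ Descent.inertP p, w • c σ = D.levelRep R σ m - m := by
  haveI : Fact (p : ℕ).Prime := ⟨p.2⟩
  haveI := D.charZero
  obtain ⟨Fp, hFp⟩ := exists_frobenius (p := (p : ℕ))
  have hBad : BadDatum (p : ℕ) ρ Λ Fp :=
    { ne := fun h => D.ne_level h.symm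
      rank := D.rank
      fin := D.fin
      stable := D.stable
      span := D.span
      level := fun r => by
        haveI := D.finite_range r
        obtain ⟨E, hE, h⟩ := (D.ordData r (exists_frob_fix ℓ r).choose_spec.1
          (exists_frob_fix ℓ r).choose_spec.2).level
        refine ⟨E, hE, fun σ hσ x hx => ?_⟩
        have h0 : D.τ r (⟨ρ σ x, D.stable σ x hx⟩ - ⟨x, hx⟩) = 0 := by
          rw [map_sub, ← D.equiv r σ ⟨x, hx⟩, sub_eq_zero]
          exact congrArg Subtype.val (DFunLike.congr_fun (h σ hσ) ⟨_, ⟨⟨x, hx⟩, rfl⟩⟩)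
        obtain ⟨y, hy⟩ := (D.ker r _).mp h0
        exact ⟨y, y.2, congrArg Subtype.val hy⟩
      unip := D.unip
      frob := hFp
      det := by
        rw [D.det, GAL.cycQ_frobenius ℓ (plc_liesOverPrime _) p.2 hFp fun h => D.ne_level h.symm,
          PadicInt.coe_natCast, map_natCast]
      ram := D.exists_ramified }
  obtain ⟨w, hw, hcls⟩ := hBad.exists_classes_bound
  refine ⟨w, hw, fun R => ?_⟩
  have hker : ∀ x, (D.τ R).rangeRestrict x = 0 ↔ ∃ y, x = ℓ ^ R • y := fun x => by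
    rw [← D.ker]
    exact ⟨fun h => congrArg Subtype.val h, fun h => Subtype.ext h⟩
  have heq : ∀ g (x : Λ), (D.τ R).rangeRestrict ⟨ρ g x, hBad.stable g x x.2⟩ =
      D.levelRep R g ((D.τ R).rangeRestrict x) := fun g x => Subtype.ext (D.equiv R g x).symm
  haveI := D.finite_range R
  exact ⟨hBad.pow_le_card_fix (D.levelRep R) _ (D.τ R).rangeRestrict_surjective hker heq,
    hcls (D.levelRep R) _ (D.τ R).rangeRestrict_surjective hker heq⟩

/-- **The rank zero element.** -/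
theorem rankZeroElement (e : ℕ → HeckeAlg)
    (hproj : ∀ R (x : JZero (p : ℕ)), ℓ ^ R • x = 0 → ∃ v, D.τ R v = heckeOp (p : ℕ) (e R) x)
    (hne : ∃ b, ∀ R, b ≤ R →
      ¬ ∃ s, latticeEval (p : ℕ) (opElt ⟨ℓ, hℓ.out⟩ * e R) = ℓ ^ b • s) :
    RankZeroElement (p : ℕ) := by
  obtain ⟨k, hk, hidx⟩ := D.exists_index_bound
  obtain ⟨B, hB, hfixed⟩ := D.exists_fixed_bound
  obtain ⟨w, hw, hp⟩ := D.exists_at_p
  refine rankZeroElement_of_dvd (p : ℕ) hℓ.out (fun R => opElt ⟨ℓ, hℓ.out⟩ * e R)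
    (C := (k * k * B * B).factorial * (ℓ ^ 0 * w)) (Nat.mul_pos (Nat.factorial_pos _) (by simpa))
    (fg_points p) (fun R x hx => ?_) hne
  haveI := D.finite_range R
  obtain ⟨F, hF, hfix⟩ := exists_frob_fix ℓ R
  let L : Descent.OddLevel (redKer p ℓ : Set (JZero (p : ℕ)))
      (heckeOp (p : ℕ) (heckeGen ⟨ℓ, hℓ.out⟩)) (heckeOp (p : ℕ) (e R)) p ℓ complexConjugation
      R 0 w k B :=
    { M := ↥(D.τ R).range
      ρ := D.levelRep R
      C := D.levelC R
      F := F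
      T := D.levelT R
      ι := (D.τ R).range.subtype
      loc := D.ordData R hF hfix
      unr := fun q hq hqp => D.unr R q hq hqp
      eig := D.eig R _
      inj := Subtype.val_injective
      equiv := fun g m => rfl
      hecke := fun m => rfl
      proj := fun y hy => by
        obtain ⟨v, hv⟩ := hproj R y hy
        exact ⟨⟨_, v, rfl⟩, hv⟩
      conn := fun m hm => by
        rw [pow_zero, one_smul]
        exact D.conn R _ m.2 hm
      index_sub := hidx R hF hfix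
      fixed := hfixed R
      count := by
        refine le_trans ?_ (Nat.le_mul_of_pos_left _ hB)
        rw [D.card_range, ← mul_assoc, mul_two, pow_add]
        refine Nat.mul_le_mul ((D.pow_le_card_fixConj R).trans ?_) (hp R).1
        exact Nat.card_le_card_of_injective
          (fun x => (⟨⟨x.1, x.2.1⟩, Subtype.ext x.2.2⟩ :
            Descent.fixOne (D.levelRep R) complexConjugation))
          fun x y h => Subtype.ext (congrArg
            (fun z : Descent.fixOne (D.levelRep R) complexConjugation =>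
              ((z : ↥(D.τ R).range) : JZero (p : ℕ))) h)
      local_p := (hp R).2 }
  obtain ⟨z, hz, hzx⟩ := L.exists_dvd D.odd (Descent.cycloChar_complexConjugation ℓ)
    (pointSetting ℓ) (fun σ y => heckeOp_smul _ _ σ y) (fun σ y => heckeOp_smul _ _ σ y)
    x hx
  exact ⟨z, hz, by rw [heckeOp_opElt_mul]; exact hzx⟩

end PlaneDatum

end Fermat.Agent.Mazur
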